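import Fermat.Agent.ArtinClassNumber.Count
import Fermat.Agent.QuadraticRH.Roots

/-!
# The central value when there are no square roots

If `D` has no square root modulo any polynomial of degree `1, ..., g` the coefficients up to `g`
are those of Liouville's function, so the value at `1 / √q` is `g + 1 - g √q`; by the Riemann
hypothesis it is not negative, which leaves only `q = 3`, `g = 1`.
-/

set_option autoImplicit false
set_option linter.style.openClassical false
set_option linter.style.haveILetI false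
set_option linter.unusedSectionVars false

noncomputable section

open scoped Classical

namespace FA.ClassNumberOneFF

open Polynomial KurlbergRudnick QuadraticLFF QuadraticRH ArtinClassNumber HyperellipticWeil

variable {k : Type*} [Field k] [Fintype k] {D : k[X]} {g : ℕ}

/-- **The value at `1 / √q` is not negative.** -/
theorem central_value_nonneg (hk : ringChar k ≠ 2) (hD : D.Monic) (hsq : Squarefree D)
    (hdeg : D.natDegree = 2 * g + 1) :
    0 ≤ ∑ n ∈ Finset.range (2 * g + 1),
      (coeffL D n : ℝ) * (Real.sqrt (Fintype.card k))⁻¹ ^ n := by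
  by_contra hlt
  set P := fun u : ℝ => ∑ n ∈ Finset.range (2 * g + 1), (coeffL D n : ℝ) * u ^ n with hP
  set s := Real.sqrt (Fintype.card k) with hs
  have hspos : 0 < s := Real.sqrt_pos.mpr (Nat.cast_pos.mpr Fintype.card_pos)
  have h0 : P 0 = 1 := by
    simp only [hP]
    rw [Finset.sum_eq_single_of_mem 0 (by simp) fun n _ hn => by simp [zero_pow hn]]
    simp [coeffL_zero]
  have hcont : Continuous P := by fun_prop
  obtain ⟨t, ⟨ht0, ht1⟩, ht⟩ := intermediate_value_Icc' (inv_nonneg.mpr hspos.le)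
    hcont.continuousOn (show (0 : ℝ) ∈ Set.Icc (P s⁻¹) (P 0) from
      ⟨(not_le.mp hlt).le, by rw [h0]; exact zero_le_one⟩)
  have hz : (((lRoots D).map fun a => 1 - a * (t : ℂ)).prod) = 0 := by
    rw [← sum_coeffL_mul_pow hk hD hsq hdeg]
    exact_mod_cast congrArg (fun x : ℝ => (x : ℂ)) ht
  obtain ⟨a, ha, ha0⟩ := Multiset.mem_map.mp (Multiset.prod_eq_zero_iff.mp hz)
  have h1 := congrArg (‖·‖) (sub_eq_zero.mp ha0).symm
  simp only [norm_mul, norm_one, norm_lRoots_eq hk hD hsq hdeg ha, Complex.norm_real,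
    Real.norm_eq_abs, abs_of_nonneg ht0, ← hs] at h1
  have he : t = s⁻¹ := eq_inv_of_mul_eq_one_right h1
  rw [he] at ht
  exact hlt (le_of_eq ht.symm)

/-- The first sums, without square roots. -/
theorem divTotal_of_no_roots (hk : ringChar k ≠ 2) (hsq : Squarefree D)
    (h0 : ∀ a : k[X], a.Monic → 1 ≤ a.natDegree → a.natDegree ≤ g → rootNum D a = 0) :
    ∀ n ≤ g, divTotal D n = if Even n then (Fintype.card k : ℤ) ^ (n / 2) else 0 := by
  intro n
  induction n using Nat.strong_induction_on with
  | _ n ih =>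
    intro hn
    rcases n with _ | _ | n
    · simp [divTotal_zero]
    all_goals
      have h := sum_rootNum (D := D) hk hsq
    · have h1 := h 1
      rw [Finset.sum_eq_zero fun a ha => by
        rw [h0 a (mem_monicSet.mp ha).1 (mem_monicSet.mp ha).2.ge
          ((mem_monicSet.mp ha).2.trans_le hn), Nat.cast_zero], if_neg (by omega), sub_zero] at h1
      simp [← h1]
    · have h1 := h (n + 2)
      rw [Finset.sum_eq_zero fun a ha => by
        rw [h0 a (mem_monicSet.mp ha).1 (by rw [(mem_monicSet.mp ha).2]; omega)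
          ((mem_monicSet.mp ha).2.trans_le hn), Nat.cast_zero], if_pos (by omega),
        Nat.add_sub_cancel, ih n (by omega) (by omega)] at h1
      have he : Even (n + 2) ↔ Even n := by simp [Nat.even_add]
      rw [show n + 1 + 1 = n + 2 from rfl, if_congr he rfl rfl,
        show (n + 2) / 2 = n / 2 + 1 by omega, pow_succ]
      split_ifs at h1 ⊢ <;> linarith

theorem coeffL_of_no_roots (hk : ringChar k ≠ 2) (hsq : Squarefree D)
    (h0 : ∀ a : k[X], a.Monic → 1 ≤ a.natDegree → a.natDegree ≤ g → rootNum D a = 0)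
    {n : ℕ} (hn : n ≤ g) :
    coeffL D n = if Even n then (Fintype.card k : ℤ) ^ (n / 2)
      else -(Fintype.card k : ℤ) ^ (n / 2 + 1) := by
  rcases n with _ | n
  · simp [coeffL_zero]
  have h := divTotal_succ D n
  rw [divTotal_of_no_roots hk hsq h0 _ hn, divTotal_of_no_roots hk hsq h0 n (by omega)] at h
  have he : Even (n + 1) ↔ ¬ Even n := Nat.even_add_one
  by_cases hev : Even n
  · rw [if_neg (by simpa [he] using hev)]
    rw [if_neg (by simpa [he] using hev), if_pos hev] at h
    rw [show (n + 1) / 2 = n / 2 by obtain ⟨i, rfl⟩ := hev; omega, pow_succ']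
    linarith
  · rw [if_pos (he.mpr hev)]
    rw [if_pos (he.mpr hev), if_neg hev] at h
    linarith

theorem sum_parity_weight (s : ℝ) (g : ℕ) :
    ∑ n ∈ Finset.range (2 * g + 1), (if Even n then (1 : ℝ) else -s) = g + 1 - g * s := by
  induction g with
  | zero => simp
  | succ g ih =>
    rw [show 2 * (g + 1) + 1 = 2 * g + 1 + 1 + 1 by ring, Finset.sum_range_succ,
      Finset.sum_range_succ, ih, if_neg (Nat.not_even_iff_odd.mpr (odd_two_mul_add_one g)),
      if_pos ⟨g + 1, by ring⟩]
    push_cast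
    ring

/-- **The central value without square roots.** -/
theorem central_value_eq (hk : ringChar k ≠ 2) (hD : D.Monic) (hsq : Squarefree D)
    (hdeg : D.natDegree = 2 * g + 1)
    (h0 : ∀ a : k[X], a.Monic → 1 ≤ a.natDegree → a.natDegree ≤ g → rootNum D a = 0) :
    ∑ n ∈ Finset.range (2 * g + 1), (coeffL D n : ℝ) * (Real.sqrt (Fintype.card k))⁻¹ ^ n =
      g + 1 - g * Real.sqrt (Fintype.card k) := by
  set s := Real.sqrt (Fintype.card k)
  have hs2 : s ^ 2 = (Fintype.card k : ℝ) := Real.sq_sqrt (Nat.cast_nonneg _)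
  have hs0 : s ≠ 0 := (Real.sqrt_pos.mpr (Nat.cast_pos.mpr Fintype.card_pos)).ne'
  have hlow : ∀ n ≤ g, (coeffL D n : ℝ) = (if Even n then 1 else -s) * s ^ n := fun n hn => by
    rw [coeffL_of_no_roots hk hsq h0 hn]
    split_ifs with he
    · obtain ⟨i, rfl⟩ := he
      push_cast
      rw [show (i + i) / 2 = i by omega, ← hs2, ← pow_mul, one_mul, two_mul]
    · obtain ⟨i, rfl⟩ := Nat.not_even_iff_odd.mp he
      push_cast
      rw [show (2 * i + 1) / 2 = i by omega, ← hs2, ← pow_mul]
      ring
  rw [← sum_parity_weight s g]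
  refine Finset.sum_congr rfl fun n hn => ?_
  rw [Finset.mem_range] at hn
  rw [inv_pow, ← div_eq_mul_inv, div_eq_iff (pow_ne_zero _ hs0)]
  rcases le_or_gt n g with h | h
  · exact hlow n h
  obtain ⟨j, rfl⟩ : ∃ j, n = g + j := ⟨n - g, by omega⟩
  obtain ⟨e, rfl⟩ : ∃ e, g = j + e := ⟨g - j, by omega⟩
  have hfe : (coeffL D (j + e + j) : ℝ) * (Fintype.card k : ℝ) ^ (j + e) =
      (Fintype.card k : ℝ) ^ (j + e + j) * (coeffL D (2 * (j + e) - (j + e + j)) : ℝ) := by
    exact_mod_cast coeffL_fe hk hD hsq hdeg (n := j + e + j) (by omega)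
  rw [show 2 * (j + e) - (j + e + j) = e by omega, hlow e (by omega), ← hs2] at hfe
  have hpar : Even (j + e + j) ↔ Even e := by
    rw [show j + e + j = e + 2 * j by ring]; simp [Nat.even_add]
  rw [if_congr hpar rfl rfl]
  refine mul_right_cancel₀ (pow_ne_zero (j + e) (pow_ne_zero 2 hs0)) (hfe.trans ?_)
  ring

/-- **Only `q = 3` and genus `1`.** -/
theorem card_and_genus (hk : ringChar k ≠ 2) (hD : D.Monic) (hsq : Squarefree D)
    (hdeg : D.natDegree = 2 * g + 1) (hg : 1 ≤ g)
    (h0 : ∀ a : k[X], a.Monic → 1 ≤ a.natDegree → a.natDegree ≤ g → rootNum D a = 0) :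
    Fintype.card k = 3 ∧ g = 1 := by
  have h := central_value_nonneg hk hD hsq hdeg
  rw [central_value_eq hk hD hsq hdeg h0] at h
  set s := Real.sqrt (Fintype.card k)
  have hs2 : s ^ 2 = (Fintype.card k : ℝ) := Real.sq_sqrt (Nat.cast_nonneg _)
  have hodd := FiniteField.odd_card_of_char_ne_two hk
  have hone := Fintype.one_lt_card (α := k)
  have hgr : (1 : ℝ) ≤ g := by exact_mod_cast hg
  have hs0 : 0 ≤ s := Real.sqrt_nonneg _
  have hq : Fintype.card k = 3 := by
    by_contra hne
    have h5 : (5 : ℝ) ≤ Fintype.card k := by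
      exact_mod_cast (show 5 ≤ Fintype.card k by omega)
    have hs : 11 / 5 ≤ s := by nlinarith
    nlinarith
  refine ⟨hq, ?_⟩
  by_contra hne
  have hg2 : (2 : ℝ) ≤ g := by exact_mod_cast (show 2 ≤ g by omega)
  rw [hq] at hs2
  push_cast at hs2
  have hs : 17 / 10 ≤ s := by nlinarith
  nlinarith

/-- The square roots modulo a linear polynomial. -/
theorem rootNum_X_sub_C (D : k[X]) (x : k) :
    rootNum D (X - C x) = (Finset.univ.filter fun y : k => y ^ 2 = D.eval x).card := by
  refine (Finset.card_bij (fun y _ => C y) (fun y hy => ?_)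
    (fun y _ z _ h => C_injective h) fun b hb => ?_).symm
  · refine (mem_rootSet (monic_X_sub_C x)).mpr ⟨?_, ?_⟩
    · rw [degree_X_sub_C]
      exact degree_C_le.trans_lt zero_lt_one
    · rw [dvd_iff_isRoot, IsRoot, eval_sub, eval_pow, eval_C, (Finset.mem_filter.mp hy).2, sub_self]
  · obtain ⟨hb1, hb2⟩ := (mem_rootSet (monic_X_sub_C x)).mp hb
    rw [degree_X_sub_C] at hb1
    have hbC : b = C (b.coeff 0) := eq_C_of_degree_le_zero (Nat.WithBot.lt_one_iff_le_zero.mp hb1)
    rw [hbC, dvd_iff_isRoot, IsRoot, eval_sub, eval_pow, eval_C, sub_eq_zero] at hb2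
    exact ⟨b.coeff 0, Finset.mem_filter.mpr ⟨Finset.mem_univ _, hb2⟩, hbC.symm⟩

/-- **The only example.** -/
theorem eq_cubic (hq : Fintype.card k = 3) (hD : D.Monic) (hdeg : D.natDegree = 3)
    (h0 : ∀ x : k, rootNum D (X - C x) = 0) : D = X ^ 3 - X - 1 := by
  have hcube : ∀ x : k, x ^ 3 = x := fun x => hq ▸ FiniteField.pow_card x
  have hval : ∀ x : k, D.eval x = -1 := fun x => by
    have h := h0 x
    rw [rootNum_X_sub_C, Finset.card_eq_zero, Finset.filter_eq_empty_iff] at h
    have hne : D.eval x ≠ 0 := fun e => h (Finset.mem_univ 0) (by rw [e]; simp)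
    have hne1 : D.eval x ≠ 1 := fun e => h (Finset.mem_univ 1) (by rw [e]; simp)
    have hc := hcube (D.eval x)
    have h' : D.eval x * ((D.eval x - 1) * (D.eval x + 1)) = 0 := by linear_combination hc
    rcases mul_eq_zero.mp h' with e | e
    · exact absurd e hne
    · exact eq_neg_of_add_eq_zero_left ((mul_eq_zero.mp e).resolve_left (sub_ne_zero.mpr hne1))
  have hX : ((X : k[X]) ^ 3 - X - 1).natDegree = 3 := by compute_degree!
  have hXm : ((X : k[X]) ^ 3 - X - 1).Monic := by monicity!
  refine sub_eq_zero.mp (eq_zero_of_degree_lt_of_eval_finset_eq_zero Finset.univ ?_ fun x _ => ?_)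
  · rw [Finset.card_univ, hq]
    have hd : D.degree = ((3 : ℕ) : WithBot ℕ) := by rw [degree_eq_natDegree hD.ne_zero, hdeg]
    exact hd ▸ degree_sub_lt_left (hd.trans (by rw [degree_eq_natDegree hXm.ne_zero, hX]))
      hD.ne_zero (by rw [hD.leadingCoeff, hXm.leadingCoeff])
  · simp [hval, hcube]

/-- The example has no square roots in degree `1`. -/
theorem rootNum_cubic (hq : Fintype.card k = 3) (x : k) :
    rootNum (X ^ 3 - X - 1 : k[X]) (X - C x) = 0 := by
  have hcube : ∀ y : k, y ^ 3 = y := fun y => hq ▸ FiniteField.pow_card y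
  rw [rootNum_X_sub_C, Finset.card_eq_zero, Finset.filter_eq_empty_iff]
  intro y _ hy
  have hns : ¬ IsSquare (-1 : k) := fun h => by
    rw [FiniteField.isSquare_neg_one_iff, hq] at h
    exact h (by norm_num)
  refine hns ⟨y, ?_⟩
  rw [← pow_two, hy]
  simp [hcube]

end FA.ClassNumberOneFF
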